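import Mathlib

/-!
# S36 engine / cell REG, route R4 (MID-UNIT): the residue of `π^N / U` — abstract form (helper922)

Mathlib only.  `V` a valuation subring of a field `L` (in the application `V = V_mid`, the
valuation of the component `mid` of `X₀(q² M')`), `π ∈ 𝔪_V`.  Data:

* `π ^ n = ϖ · (ρ + π z₁)`             (Eisenstein: `π^(q-1)/q ≡ ρ`, `ρ = G(j)/(j^(q²) - j)`);
* `U · b = ϖ ^ 12 · u`, `u ∈ Vˣ`, `b = u⁻¹ + π z₂`
                                          (`U = U_m = α(U')/β(U')`, `u = Δ(t^q)/Δ(t)`, `b = β(U')`);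
* `e · u ^ 2 = ρ ^ 12 + π z₃`            (`θ`-identity modulo `q`).

Then `(π ^ (12 n) - e U) / U ∈ π V ⊆ 𝔪_V`: this is hypothesis `hres` of
`S36.H878.principal_of_unit_self` (and `hω` of `S36.H922.principal_of_unit_quot`), with
`N = 12 n`, `x = π`, `g = e`.
-/

set_option autoImplicit false

namespace Fermat.Agent.S36.H922

variable {L : Type*} [Field L]

/-- **Residue of `π^N / U` along `V`.**  Conclusion in the form `= π · Z`, `Z ∈ V`. -/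
theorem h922_hres_abs_mul (V : ValuationSubring L) (π ϖ ρ u b e U : L) (n : ℕ)
    (hϖ : ϖ ≠ 0) (hπ : π ∈ V) (hρ : ρ ∈ V) (hu0 : u ≠ 0) (hu' : u⁻¹ ∈ V)
    (h1 : ∃ z ∈ V, π ^ n = ϖ * (ρ + π * z))
    (h2 : U * b = ϖ ^ 12 * u)
    (h2' : ∃ z ∈ V, b = u⁻¹ + π * z)
    (h3 : ∃ z ∈ V, e * u ^ 2 = ρ ^ 12 + π * z) :
    ∃ Z ∈ V, (π ^ (12 * n) - e * U) * U⁻¹ = π * Z := by
  obtain ⟨z₁, hz₁, h1⟩ := h1
  obtain ⟨z₂, hz₂, h2'⟩ := h2'
  obtain ⟨z₃, hz₃, h3⟩ := h3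
  have hU0 : U ≠ 0 := by
    intro h
    rw [h, zero_mul] at h2
    exact (mul_ne_zero (pow_ne_zero _ hϖ) hu0) h2.symm
  have hb0 : b ≠ 0 := by
    intro h
    rw [h, mul_zero] at h2
    exact (mul_ne_zero (pow_ne_zero _ hϖ) hu0) h2.symm
  -- `(ρ + π z₁)^12 = ρ^12 + π z₁ S`
  set X := ρ + π * z₁ with hX
  set S := ∑ i ∈ Finset.range 12, X ^ i * ρ ^ (12 - 1 - i) with hS
  have hSV : S ∈ V := by
    apply sum_mem
    intro i _
    exact V.mul_mem _ _ (pow_mem (V.add_mem _ _ hρ (V.mul_mem _ _ hπ hz₁)) _) (pow_mem hρ _)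
  have hgeom : X ^ 12 = ρ ^ 12 + π * (z₁ * S) := by
    have h := Commute.geom_sum₂_mul (Commute.all X ρ) 12
    rw [← hS] at h
    have hXρ : X - ρ = π * z₁ := by rw [hX]; ring
    rw [hXρ] at h
    linear_combination -h
  have hpow : π ^ (12 * n) = ϖ ^ 12 * X ^ 12 := by
    rw [mul_comm 12 n, pow_mul, h1, mul_pow]
  refine ⟨z₁ * S * (u⁻¹) ^ 2 + ρ ^ 12 * z₂ * u⁻¹ + π * (z₁ * S * z₂ * u⁻¹) - z₃ * (u⁻¹) ^ 2,
    ?_, ?_⟩
  · refine sub_mem (V.add_mem _ _ (V.add_mem _ _ ?_ ?_) ?_) ?_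
    · exact V.mul_mem _ _ (V.mul_mem _ _ hz₁ hSV) (pow_mem hu' _)
    · exact V.mul_mem _ _ (V.mul_mem _ _ (pow_mem hρ _) hz₂) hu'
    · exact V.mul_mem _ _ hπ (V.mul_mem _ _ (V.mul_mem _ _ (V.mul_mem _ _ hz₁ hSV) hz₂) hu')
    · exact V.mul_mem _ _ hz₃ (pow_mem hu' _)
  · -- `U = ϖ^12 u / b`, `e = (ρ^12 + π z₃) / u^2`
    have hUeq : U = ϖ ^ 12 * u * b⁻¹ := by
      rw [← h2, mul_assoc, mul_inv_cancel₀ hb0, mul_one]
    have heeq : e = (ρ ^ 12 + π * z₃) * (u⁻¹) ^ 2 := by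
      rw [← h3, inv_pow, mul_assoc, mul_inv_cancel₀ (pow_ne_zero _ hu0), mul_one]
    have hϖ12 : ϖ ^ 12 ≠ 0 := pow_ne_zero _ hϖ
    have hquot : (π ^ (12 * n) - e * U) * U⁻¹ = X ^ 12 * b * u⁻¹ - e := by
      rw [sub_mul, mul_assoc e, mul_inv_cancel₀ hU0, mul_one, hpow, hUeq]
      field_simp
    rw [hquot, hgeom, h2', heeq]
    have huu : u⁻¹ * u = 1 := inv_mul_cancel₀ hu0
    ring

/-- **Residue of `π^N / U` along `V`**, conclusion in `V.nonunits` (the form `hres` of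
`S36.H878.principal_of_unit_self`). -/
theorem h922_hres_abs (V : ValuationSubring L) (π ϖ ρ u b e U : L) (n : ℕ)
    (hϖ : ϖ ≠ 0) (hπ : π ∈ V.nonunits) (hρ : ρ ∈ V) (hu0 : u ≠ 0) (hu' : u⁻¹ ∈ V)
    (h1 : ∃ z ∈ V, π ^ n = ϖ * (ρ + π * z))
    (h2 : U * b = ϖ ^ 12 * u)
    (h2' : ∃ z ∈ V, b = u⁻¹ + π * z)
    (h3 : ∃ z ∈ V, e * u ^ 2 = ρ ^ 12 + π * z) :
    (π ^ (12 * n) - e * U) * U⁻¹ ∈ V.nonunits := by
  have hπV : π ∈ V := (V.valuation_le_one_iff π).1 ((V.mem_nonunits_iff).1 hπ).le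
  obtain ⟨Z, hZ, h⟩ := h922_hres_abs_mul V π ϖ ρ u b e U n hϖ hπV hρ hu0 hu' h1 h2 h2' h3
  rw [h, ValuationSubring.mem_nonunits_iff, map_mul]
  exact mul_lt_one_of_lt_of_le ((V.mem_nonunits_iff).1 hπ) ((V.valuation_le_one_iff Z).2 hZ)

/-- **Residue of `π^N / U` along `V`**, all congruences modulo `𝔪_V = V.nonunits`
(no uniformiser needed):
`π^n = ϖ · uπ`, `uπ ≡ ρ`, `U · b = ϖ^12 · u`, `b ≡ u⁻¹`, `e · u² ≡ ρ^12`  ⟹  `π^(12 n)/U ≡ e`. -/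
theorem h922_hres_abs_nonunits (V : ValuationSubring L) (π ϖ uπ ρ u b e U : L) (n : ℕ)
    (hϖ : ϖ ≠ 0) (hρ : ρ ∈ V) (hu0 : u ≠ 0) (hu' : u⁻¹ ∈ V)
    (h1 : π ^ n = ϖ * uπ) (h1' : uπ - ρ ∈ V.nonunits)
    (h2 : U * b = ϖ ^ 12 * u) (h2' : b - u⁻¹ ∈ V.nonunits)
    (h3 : e * u ^ 2 - ρ ^ 12 ∈ V.nonunits) :
    (π ^ (12 * n) - e * U) * U⁻¹ ∈ V.nonunits := by
  have hmemV : ∀ x : L, x ∈ V.nonunits → x ∈ V := fun x hx =>
    (V.valuation_le_one_iff x).1 ((V.mem_nonunits_iff).1 hx).le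
  have hmul : ∀ x y : L, x ∈ V.nonunits → y ∈ V → x * y ∈ V.nonunits := by
    intro x y hx hy
    rw [ValuationSubring.mem_nonunits_iff, map_mul]
    exact mul_lt_one_of_lt_of_le ((V.mem_nonunits_iff).1 hx) ((V.valuation_le_one_iff y).2 hy)
  have hadd : ∀ x y : L, x ∈ V.nonunits → y ∈ V.nonunits → x + y ∈ V.nonunits := by
    intro x y hx hy
    rw [ValuationSubring.mem_nonunits_iff]
    exact lt_of_le_of_lt (V.valuation.map_add x y)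
      (max_lt ((V.mem_nonunits_iff).1 hx) ((V.mem_nonunits_iff).1 hy))
  have hneg : ∀ x : L, x ∈ V.nonunits → -x ∈ V.nonunits := by
    intro x hx
    rw [ValuationSubring.mem_nonunits_iff, Valuation.map_neg]
    exact (V.mem_nonunits_iff).1 hx
  set d₁ := uπ - ρ with hd₁
  set d₂ := b - u⁻¹ with hd₂
  set d₃ := e * u ^ 2 - ρ ^ 12 with hd₃
  have huπV : uπ ∈ V := by
    have : uπ = ρ + d₁ := by rw [hd₁]; ring
    rw [this]
    exact V.add_mem _ _ hρ (hmemV _ h1')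
  have hU0 : U ≠ 0 := by
    intro h
    rw [h, zero_mul] at h2
    exact (mul_ne_zero (pow_ne_zero _ hϖ) hu0) h2.symm
  have hb0 : b ≠ 0 := by
    intro h
    rw [h, mul_zero] at h2
    exact (mul_ne_zero (pow_ne_zero _ hϖ) hu0) h2.symm
  set S := ∑ i ∈ Finset.range 12, uπ ^ i * ρ ^ (12 - 1 - i) with hS
  have hSV : S ∈ V := by
    apply sum_mem
    intro i _
    exact V.mul_mem _ _ (pow_mem huπV _) (pow_mem hρ _)
  have hgeom : uπ ^ 12 = ρ ^ 12 + d₁ * S := by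
    have h := Commute.geom_sum₂_mul (Commute.all uπ ρ) 12
    rw [← hS] at h
    rw [hd₁]
    linear_combination -h
  have hpow : π ^ (12 * n) = ϖ ^ 12 * uπ ^ 12 := by
    rw [mul_comm 12 n, pow_mul, h1, mul_pow]
  have hUeq : U = ϖ ^ 12 * u * b⁻¹ := by
    rw [← h2, mul_assoc, mul_inv_cancel₀ hb0, mul_one]
  have hquot : (π ^ (12 * n) - e * U) * U⁻¹ = uπ ^ 12 * b * u⁻¹ - e := by
    have hϖ12 : ϖ ^ 12 ≠ 0 := pow_ne_zero _ hϖ
    rw [sub_mul, mul_assoc e, mul_inv_cancel₀ hU0, mul_one, hpow, hUeq]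
    field_simp
  have hb : b = u⁻¹ + d₂ := by rw [hd₂]; ring
  have he : e = (ρ ^ 12 + d₃) * (u⁻¹) ^ 2 := by
    rw [hd₃, add_sub_cancel, inv_pow, mul_assoc, mul_inv_cancel₀ (pow_ne_zero _ hu0), mul_one]
  have hfinal : (π ^ (12 * n) - e * U) * U⁻¹
      = d₁ * (S * (u⁻¹) ^ 2) + d₂ * ((ρ ^ 12 + d₁ * S) * u⁻¹) + (-d₃) * (u⁻¹) ^ 2 := by
    rw [hquot, hgeom]
    conv_lhs => rw [hb, he]
    ring
  rw [hfinal]
  refine hadd _ _ (hadd _ _ (hmul _ _ h1' ?_) (hmul _ _ h2' ?_)) (hmul _ _ (hneg _ h3) ?_)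
  · exact V.mul_mem _ _ hSV (pow_mem hu' _)
  · exact V.mul_mem _ _ (V.add_mem _ _ (pow_mem hρ _) (V.mul_mem _ _ (hmemV _ h1') hSV)) hu'
  · exact pow_mem hu' _

end Fermat.Agent.S36.H922
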