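import Fermat.Agent.S28.Theta.Main
import Fermat.Agent.S28.H88.Kronecker

/-!
# S36 engine / cell REG, route R4 (MID-UNIT): the `θ`-identity modulo `p`  — helper922

Formal `q`-series only.  In `𝔽_p((q))`, with `j̄ = j mod p`, `ū = Δ(q^p)/Δ(q) mod p = Δ̄^(p-1)`,
and `Ū` the reduction of the Eisenstein constant `Ψ(j)/p` of helper83's leaf EIS
(`h83_eisenstein`: `Ū · θ j̄ = (j̄ - j̄^(p²)) · (θ j̄)^p`):

  `(j̄⁴ (j̄ - 1728)³) ^ (2 (p-1)) · ū² · (j̄^(p²) - j̄)^12 = Ū^12`.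

This is hypothesis (3) of `h922_hres_abs` (`ResAbs.lean`) after dividing by the unit
`(j^(p²) - j)^12`: with `ρ = G(j)/(j^(p²) - j)`, `e = (j⁴ (j - 1728)³)^(2(p-1))`:
`e · u² ≡ ρ^12` modulo `p`.
-/

set_option autoImplicit false

noncomputable section

open ModularCurve HahnSeries

namespace Fermat.Agent.S36.H922

open Fermat.Agent.S28

variable (p : ℕ) [hp : Fact p.Prime] [NeZero p]

theorem h922_thetaL_jqModC_ne_zero (k : Type*) [Field k] : thetaL k (jqModC k) ≠ 0 := by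
  intro h
  have h1 : (thetaL k (jqModC k)).coeff (-1) = -1 := by
    rw [thetaL_coeff, coeff_jqModC_neg_one]
    simp
  rw [h, HahnSeries.coeff_zero] at h1
  exact one_ne_zero (neg_eq_zero.mp h1.symm)

/-- `ū = Δ̄^p · Δ̄⁻¹` over `𝔽_p`. -/
theorem h922_unitL_zmod :
    unitL (ZMod p) p = deltaL (ZMod p) ^ p * deltaInvL (ZMod p) := by
  rw [unitL, h88_qExpand_zmod]

/-- **The `θ`-identity modulo `p` in the form consumed by route R4.** -/
theorem h922_theta_bar (Ubar : LaurentSeries (ZMod p))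
    (hU : Ubar * thetaL (ZMod p) (jqModC (ZMod p))
      = (jqModC (ZMod p) - jqModC (ZMod p) ^ (p ^ 2))
          * thetaL (ZMod p) (jqModC (ZMod p)) ^ p) :
    (jqModC (ZMod p) ^ 4 * (jqModC (ZMod p) - 1728) ^ 3) ^ (2 * (p - 1))
        * unitL (ZMod p) p ^ 2 * (jqModC (ZMod p) ^ (p ^ 2) - jqModC (ZMod p)) ^ 12
      = Ubar ^ 12 := by
  set J := jqModC (ZMod p) with hJ
  set T := thetaL (ZMod p) J with hT
  set D := deltaL (ZMod p) with hD
  set Di := deltaInvL (ZMod p) with hDi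
  have hT0 : T ≠ 0 := h922_thetaL_jqModC_ne_zero (ZMod p)
  have hDD : D * Di = 1 := h88_deltaL_mul_deltaInvL (ZMod p)
  have hθ : T ^ 6 = D * J ^ 4 * (J - 1728) ^ 3 := th327_theta_identity_ring (ZMod p)
  have hp1 : 1 ≤ p := hp.out.one_lt.le
  -- `Ū = (j - j^{p²}) (θ j)^{p-1}`
  have hU' : Ubar = (J - J ^ (p ^ 2)) * T ^ (p - 1) := by
    apply mul_right_cancel₀ hT0
    rw [hU, mul_assoc, ← pow_succ, Nat.sub_add_cancel hp1]
  have hD0 : D ≠ 0 := by
    intro h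
    rw [h, zero_mul] at hDD
    exact zero_ne_one hDD
  -- `Δ^{2(p-1)} = (Δ^p Δ⁻¹)^2`
  have hu : (D ^ p * Di) ^ 2 = D ^ (2 * (p - 1)) := by
    have h1 : D ^ p = D ^ (p - 1) * D := by rw [← pow_succ, Nat.sub_add_cancel hp1]
    rw [h1, mul_assoc, hDD, mul_one, ← pow_mul, mul_comm]
  have hT12 : (T ^ (p - 1)) ^ 12 = (D * J ^ 4 * (J - 1728) ^ 3) ^ (2 * (p - 1)) := by
    rw [← hθ, ← pow_mul, ← pow_mul]
    congr 1
    ring
  have hev : (J - J ^ (p ^ 2)) ^ 12 = (J ^ (p ^ 2) - J) ^ 12 := by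
    rw [← neg_sub, Even.neg_pow (by decide)]
  rw [h922_unitL_zmod, hu, hU', mul_pow (J - J ^ (p ^ 2)), hT12, hev, mul_pow, mul_pow,
    mul_pow]
  ring

end Fermat.Agent.S36.H922
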