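import Fermat.Agent.S36.H922.UnitBar

/-!
# S36 engine / cell REG, route R4 (MID-UNIT): the residue of `β(U')` along `mid` — helper922

`V` a valuation subring of a field `L` of residue characteristic `p`; `Ψ ∈ ℤ[Y][X]` the unit
polynomial of level `p`.  If `b, g ∈ Vˣ` and `y ∈ V` satisfy `Ψ(y ; b) = 0 = Ψ(y ; g)`, then
`b ≡ g` modulo `𝔪_V`.

Application: `L = F_{p² M'}`, `V = V_mid`, `y = j_p`, `b = β(U') = p¹² Δ(t^{p²})/Δ(t^p)`
(`Ψ(j_p ; β U') = β(Ψ(j ; U')) = 0`), `g = α(p¹²/U') = Δ(t)/Δ(t^p)` (second relation of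
`h922_exists_unitPoly`).  Both are units of `V_mid` (`V_mid ∘ β = V₂'`, `V_mid ∘ α = V₁'`).
So `β(U') ≡ Δ(t)/Δ(t^p)` modulo `𝔪_mid`: hypothesis `h2'` of `h922_hres_abs` with `u = Δ(t^p)/Δ(t)`.
-/

set_option autoImplicit false

noncomputable section

open ModularCurve HahnSeries Polynomial

namespace Fermat.Agent.S36.H922

open Fermat.Agent.S28

variable (p : ℕ) [hp : Fact p.Prime] [NeZero p]

/-- A field in which `p = 0` has characteristic `p`. -/
theorem h922_charP_of_cast_eq_zero (κ : Type*) [Field κ] (h : (p : κ) = 0) : CharP κ p := by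
  obtain ⟨c, hc⟩ := CharP.exists κ
  have hdvd : c ∣ p := (CharP.cast_eq_zero_iff κ c p).1 h
  rcases (Nat.dvd_prime hp.out).1 hdvd with h1 | h1
  · exfalso
    subst h1
    exact CharP.char_ne_one κ 1 rfl
  · subst h1
    exact hc

/-- **Unit roots of the unit polynomial are congruent modulo `𝔪_V`.** -/
theorem h922_unit_roots_congr {L : Type*} [Field L] (V : ValuationSubring L)
    (hpV : (p : L) ∈ V.nonunits)
    (Ψ : Polynomial (Polynomial ℤ)) (hΨ : Ψ.Monic) (hdeg : Ψ.natDegree = p + 1)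
    (h1 : Ψ.eval₂ (evalAt (jqModC ℤ)) ((p : LaurentSeries ℤ) ^ 12 * unitL ℤ p) = 0)
    (h2 : Ψ.eval₂ (evalAt (qExpand ℤ p (jqModC ℤ))) (H589.unitL' p) = 0)
    (y b g : L) (hy : y ∈ V) (hb : b ∈ V) (hb' : b⁻¹ ∈ V) (hg : g ∈ V) (hg' : g⁻¹ ∈ V)
    (hb0 : b ≠ 0) (hg0 : g ≠ 0)
    (hΨb : Ψ.eval₂ (Polynomial.aeval (R := ℤ) y).toRingHom b = 0)
    (hΨg : Ψ.eval₂ (Polynomial.aeval (R := ℤ) y).toRingHom g = 0) :
    b - g ∈ V.nonunits := by
  classical
  set κ := IsLocalRing.ResidueField V with hκ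
  set res : V →+* κ := IsLocalRing.residue V with hres
  -- characteristic
  have hpm : ((p : V)) ∈ IsLocalRing.maximalIdeal V := by
    rw [IsLocalRing.mem_maximalIdeal, mem_nonunits_iff]
    intro hu
    have h3 : V.valuation ((p : V) : L) = 1 := (V.valuation_eq_one_iff (p : V)).1 hu
    have h4 : V.valuation (p : L) < 1 := (V.mem_nonunits_iff).1 hpV
    have h5 : ((p : V) : L) = (p : L) := by push_cast; rfl
    rw [h5] at h3
    rw [h3] at h4
    exact lt_irrefl _ h4
  have hp0 : (p : κ) = 0 := by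
    have : res (p : V) = 0 := (IsLocalRing.residue_eq_zero_iff _).2 hpm
    rwa [map_natCast] at this
  haveI : CharP κ p := h922_charP_of_cast_eq_zero p κ hp0
  -- elements of `V`
  set yV : V := ⟨y, hy⟩ with hyV
  set bV : V := ⟨b, hb⟩ with hbV
  set gV : V := ⟨g, hg⟩ with hgV
  have hcomp : (V.subtype : V →+* L).comp (Polynomial.aeval (R := ℤ) yV).toRingHom
      = (Polynomial.aeval (R := ℤ) y).toRingHom := by
    apply Polynomial.ringHom_ext
    · intro a
      simp
    · simp [hyV]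
  have hcomp' : res.comp (Polynomial.aeval (R := ℤ) yV).toRingHom
      = (Polynomial.aeval (R := ℤ) (res yV)).toRingHom := by
    apply Polynomial.ringHom_ext
    · intro a
      simp
    · simp
  have key : ∀ x : L, ∀ hx : x ∈ V,
      Ψ.eval₂ (Polynomial.aeval (R := ℤ) y).toRingHom x = 0 →
      Ψ.eval₂ (Polynomial.aeval (R := ℤ) (res yV)).toRingHom (res ⟨x, hx⟩) = 0 := by
    intro x hx h
    have h3 : Ψ.eval₂ (Polynomial.aeval (R := ℤ) yV).toRingHom (⟨x, hx⟩ : V) = 0 := by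
      apply Subtype.val_injective
      have := Polynomial.hom_eval₂ Ψ (Polynomial.aeval (R := ℤ) yV).toRingHom
        (V.subtype : V →+* L) (⟨x, hx⟩ : V)
      rw [hcomp] at this
      show (V.subtype : V →+* L) _ = _
      rw [this]
      exact h
    have h4 := congrArg res h3
    rwa [Polynomial.hom_eval₂, hcomp', map_zero] at h4
  have hunit : ∀ x : L, ∀ hx : x ∈ V, x ≠ 0 → x⁻¹ ∈ V → IsUnit (res ⟨x, hx⟩) := by
    intro x hx hx0 hx'
    apply IsUnit.map
    exact IsUnit.of_mul_eq_one ⟨x⁻¹, hx'⟩ (Subtype.ext (mul_inv_cancel₀ hx0))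
  have heq : res bV = res gV :=
    h922_unit_roots_eq p Ψ hΨ hdeg h1 h2 κ (res yV) (res bV) (res gV)
      (hunit b hb hb0 hb') (hunit g hg hg0 hg') (key b hb hΨb) (key g hg hΨg)
  have hmem : bV - gV ∈ IsLocalRing.maximalIdeal V := by
    rw [← IsLocalRing.residue_eq_zero_iff, map_sub, ← hres, heq, sub_self]
  rw [IsLocalRing.mem_maximalIdeal, mem_nonunits_iff] at hmem
  rw [ValuationSubring.mem_nonunits_iff]
  have hle : V.valuation (b - g) ≤ 1 := (V.valuation_le_one_iff _).2 (sub_mem hb hg)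
  rcases lt_or_eq_of_le hle with h | h
  · exact h
  · exfalso
    apply hmem
    exact (V.valuation_eq_one_iff (bV - gV)).2 h

end Fermat.Agent.S36.H922
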