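import Fermat.Agent.S36.H438.Unit
import Fermat.Agent.S36.H922.UnitRes
import Fermat.Agent.S36.H922.ThetaBar
import Fermat.Agent.S36.H922.ResAbs

/-!
# S36 engine / cell REG, route R4 (MID-UNIT): the residue of `π^N / U_m` along `mid`, CONCRETE
(helper922; A2/Mod vocabulary, on helper438's leaf MU)

Level `M₁` with `q ∣ M₁` (`M₁ = q M'`), level `N = M₁ * q`; `α = αE E M₁ q`, `β = βE E M₁ q`.
`V` ANY valuation subring of `F_{N,E}` such that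

* `hα`  : `α (V∞') ⊆ V`                       (`V` lies over the Gauss valuation of level `M₁` via `α`);
* `hqV` : `q ∈ 𝔪_V`;
* `hβD` : `β(D)` is a unit of `V`, `D = q¹² Δ(t^q)/Δ(t)`   (`V ∘ β = V₂'`, MOD3-SYM + MU);
* `hac` : `j^(q²) - j` is a unit of `V`        (Gauss unit of level `M₁`);
* `hEis`: `π^(q-1) (j^(q²) - j) / q ≡ g₁` modulo `𝔪_V`, `g₁ ∈ F_{M₁}` with `t`-expansion the
          Eisenstein constant `U = Ψ(j)/q` of helper83 (`h83_eisenstein`);   `π = j_{q²} - j`.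
          [from helper972's `EisData` + `h922_residue_Vc`].

Then, with `U_m = α(D)/β(D)` and `e = (j⁴ (j - 1728)³)^(2(q-1))`:

  `(π ^ (12 (q-1)) - e · U_m) / U_m ∈ 𝔪_V`,

which is hypothesis `hres` of `S36.H878.principal_of_unit_self` at `V = V_mid`.
-/

set_option autoImplicit false
set_option synthInstance.maxHeartbeats 400000
set_option maxHeartbeats 1600000

noncomputable section

open ModularCurve HahnSeries Polynomial

namespace Fermat.Agent.S36.H922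

open Fermat.Agent.A2.Mod Fermat.Agent.S28 Fermat.Agent.S36.H438 Fermat.Agent.A2.Mod.H873

/-! ## 1. The kernel of the reduction `ℤ((t)) → 𝔽_q((t))` -/

section Kernel

variable (q : ℕ) [NeZero q]

/-- Coefficientwise division by `q`. -/
def h922_divSeries (X : LaurentSeries ℤ) : LaurentSeries ℤ where
  coeff n := X.coeff n / (q : ℤ)
  isPWO_support' := X.isPWO_support.mono fun n hn => by
    simp only [Function.mem_support, ne_eq] at hn ⊢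
    intro h
    exact hn (by rw [h, Int.zero_ediv])

theorem h922_eq_mul_of_red_eq_zero (X : LaurentSeries ℤ)
    (h : coeffMap (Int.castRingHom (ZMod q)) X = 0) :
    X = (q : LaurentSeries ℤ) * h922_divSeries q X := by
  ext n
  have hn : (Int.castRingHom (ZMod q)) (X.coeff n) = 0 := by
    have := congrArg (fun Z => Z.coeff n) h
    simpa [coeffMap_coeff] using this
  have hdvd : (q : ℤ) ∣ X.coeff n := by
    rw [← ZMod.intCast_zmod_eq_zero_iff_dvd]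
    exact hn
  have hC : (q : LaurentSeries ℤ) = HahnSeries.C ((q : ℕ) : ℤ) := by
    rw [map_natCast]
  rw [hC, HahnSeries.C_apply, HahnSeries.coeff_single_zero_mul]
  show X.coeff n = (q : ℤ) * (X.coeff n / (q : ℤ))
  rw [Int.mul_ediv_cancel' hdvd]

end Kernel

/-! ## 2. Formal identities -/

section Formal

variable (q : ℕ) [hq : Fact q.Prime] [NeZero q]

/-- The formal series `(j⁴ (j - 1728)³)^(2(q-1)) · u² · (j^(q²) - j)^12 - U^12` is divisible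
by `q` in `ℤ((t))`. -/
theorem h922_theta_int (U : LaurentSeries ℤ)
    (hU : coeffMap (Int.castRingHom (ZMod q)) U * thetaL (ZMod q) (jqModC (ZMod q))
      = (jqModC (ZMod q) - jqModC (ZMod q) ^ (q ^ 2))
          * thetaL (ZMod q) (jqModC (ZMod q)) ^ q) :
    ∃ Z : LaurentSeries ℤ,
      (jqModC ℤ ^ 4 * (jqModC ℤ - 1728) ^ 3) ^ (2 * (q - 1)) * unitL ℤ q ^ 2
          * (jqModC ℤ ^ (q ^ 2) - jqModC ℤ) ^ 12 - U ^ 12
        = (q : LaurentSeries ℤ) * Z := by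
  refine ⟨_, h922_eq_mul_of_red_eq_zero q _ ?_⟩
  have h := h922_theta_bar q (coeffMap (Int.castRingHom (ZMod q)) U) hU
  rw [map_sub, map_mul, map_mul, map_pow, map_pow, map_pow, map_pow, map_mul, map_pow, map_pow,
    map_sub, map_sub, map_pow, coeffMap_jqModC, h88_coeffMap_unitL, map_ofNat, h, sub_self]

/-- The unit relation for `β(D)`: `Ψ(j(t^q) ; q¹² Δ(t^{q²})/Δ(t^q)) = 0`. -/
theorem h922_unitPoly_beta (Ψ : Polynomial (Polynomial ℤ))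
    (h1 : Ψ.eval₂ (evalAt (jqModC ℤ)) ((q : LaurentSeries ℤ) ^ 12 * unitL ℤ q) = 0) :
    Ψ.eval₂ (evalAt (qExpand ℤ q (jqModC ℤ)))
      (qExpand ℤ q ((q : LaurentSeries ℤ) ^ 12 * unitL ℤ q)) = 0 := by
  have h := congrArg (qExpand ℤ q) h1
  rw [Polynomial.hom_eval₂, map_zero] at h
  have hcomp : (qExpand ℤ q).comp (evalAt (jqModC ℤ)) = evalAt (qExpand ℤ q (jqModC ℤ)) := by
    apply Polynomial.ringHom_ext
    · intro a
      simp [evalAt]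
    · simp [evalAt]
  rw [hcomp] at h
  exact h

end Formal

/-! ## 3. The concrete residue statement -/

section Concrete

variable (P : ValuationSubring Qb) (E : IntermediateField ℚ Qb)
variable (M₁ q : ℕ) [NeZero M₁] [hq : Fact q.Prime] [NeZero q] (hqM : q ∣ M₁)

omit hq in
/-- An element of level `M₁` with integral `t`-expansion lies in `V` (`V ⊇ α(V∞')`). -/
theorem h922_alpha_mem {Vinf' : ValuationSubring (FE E M₁)} (hVinf : IsVinf P E M₁ Vinf')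
    {V : ValuationSubring (FE E (M₁ * q))} (hα : ∀ f ∈ Vinf', αE E M₁ q f ∈ V)
    (f : FE E M₁) (X : LaurentSeries ℤ) (hf : (f : LaurentSeries E) = castE E X) :
    αE E M₁ q f ∈ V :=
  hα f (mem_vinf_of_coe_eq_castE P E hVinf hf)

omit hq in
theorem h922_natCast_nonunits {V : ValuationSubring (FE E (M₁ * q))}
    (hqV : algebraMap E (FE E (M₁ * q)) (q : E) ∈ V.nonunits) :
    ((q : ℕ) : FE E (M₁ * q)) ∈ V.nonunits := by
  rwa [map_natCast] at hqV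

/-- **CONC-RB**: `β(D) ≡ u'` modulo `𝔪_V`. -/
theorem h922_betaD_congr
    (Vinf' : ValuationSubring (FE E M₁)) (hVinf : IsVinf P E M₁ Vinf')
    (V : ValuationSubring (FE E (M₁ * q)))
    (hα : ∀ f ∈ Vinf', αE E M₁ q f ∈ V)
    (hqV : algebraMap E (FE E (M₁ * q)) (q : E) ∈ V.nonunits)
    (hβD : βE E M₁ q (dE E M₁ q hqM) ∈ V)
    (hβD' : (βE E M₁ q (dE E M₁ q hqM))⁻¹ ∈ V) :
    βE E M₁ q (dE E M₁ q hqM) - αE E M₁ q (uE' E M₁ q hqM) ∈ V.nonunits := by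
  obtain ⟨Ψ, hΨ, hdeg, h1, h2⟩ := h922_exists_unitPoly q hq.out
  have hinjα : Function.Injective (αE E M₁ q) := (αE E M₁ q).toRingHom.injective
  have hinjβ : Function.Injective (βE E M₁ q) := (βE E M₁ q).toRingHom.injective
  refine h922_unit_roots_congr q V (h922_natCast_nonunits E M₁ q hqV) Ψ hΨ hdeg h1 h2
    (αE E M₁ q (jE E M₁ q hqM)) (βE E M₁ q (dE E M₁ q hqM)) (αE E M₁ q (uE' E M₁ q hqM))
    ?_ hβD hβD' ?_ ?_ ?_ ?_ ?_ ?_
  · exact h922_alpha_mem P E M₁ q hVinf hα _ _ (coe_jE_int E M₁ q hqM)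
  · exact h922_alpha_mem P E M₁ q hVinf hα _ _ (coe_uE' E M₁ q hqM)
  · rw [← map_inv₀, uE'_eq_inv, inv_inv]
    exact h922_alpha_mem P E M₁ q hVinf hα _ _ (coe_uE E M₁ q hqM)
  · exact (map_ne_zero_iff _ hinjβ).mpr (dE_ne_zero E M₁ q hqM)
  · rw [uE'_eq_inv]
    exact (map_ne_zero_iff _ hinjα).mpr (inv_ne_zero (uE_ne_zero E M₁ q hqM))
  · refine eval₂_eq_zero_of_int E (M₁ * q) Ψ _ _
      (qExpand ℤ q ((q : LaurentSeries ℤ) ^ 12 * unitL ℤ q)) (qExpand ℤ q (jqModC ℤ)) ?_ ?_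
      (h922_unitPoly_beta q Ψ h1)
    · rw [coe_heckeBetaBar, coe_dE, castE, coeffMap_qExpand]
    · rw [coe_heckeAlphaBar, coe_jE_int]
  · refine eval₂_eq_zero_of_int E (M₁ * q) Ψ _ _
      (H589.unitL' q) (qExpand ℤ q (jqModC ℤ)) ?_ ?_ h2
    · rw [coe_heckeAlphaBar, coe_uE']
    · rw [coe_heckeAlphaBar, coe_jE_int]

omit hq in
/-- The coercion `F_{M₁,E} → E((t))` as a ring homomorphism. -/
theorem h922_coe_ringHom (f : FE E M₁) :
    ((FE E M₁).val.toRingHom f : LaurentSeries E) = (f : LaurentSeries E) := rfl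

/-- **CONC-TH**: `e · u² · (j^(q²) - j)^12 - g₁^12 ∈ q · V∞'` (level `M₁`, Gauss valuation). -/
theorem h922_theta_conc
    (U : LaurentSeries ℤ)
    (hU : coeffMap (Int.castRingHom (ZMod q)) U * thetaL (ZMod q) (jqModC (ZMod q))
      = (jqModC (ZMod q) - jqModC (ZMod q) ^ (q ^ 2))
          * thetaL (ZMod q) (jqModC (ZMod q)) ^ q)
    (g₁ : FE E M₁) (hg₁ : (g₁ : LaurentSeries E) = castE E U) :
    ∃ (z₁ : FE E M₁) (Z : LaurentSeries ℤ), (z₁ : LaurentSeries E) = castE E Z ∧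
      (jE E M₁ 1 (one_dvd M₁) ^ 4 * (jE E M₁ 1 (one_dvd M₁) - 1728) ^ 3) ^ (2 * (q - 1))
          * uE E M₁ q hqM ^ 2
          * (jE E M₁ 1 (one_dvd M₁) ^ (q ^ 2) - jE E M₁ 1 (one_dvd M₁)) ^ 12 - g₁ ^ 12
        = algebraMap E (FE E M₁) (q : E) * z₁ := by
  obtain ⟨Z, hZ⟩ := h922_theta_int q U hU
  set T₁ : FE E M₁ :=
    (jE E M₁ 1 (one_dvd M₁) ^ 4 * (jE E M₁ 1 (one_dvd M₁) - 1728) ^ 3) ^ (2 * (q - 1))
          * uE E M₁ q hqM ^ 2
          * (jE E M₁ 1 (one_dvd M₁) ^ (q ^ 2) - jE E M₁ 1 (one_dvd M₁)) ^ 12 - g₁ ^ 12 with hT₁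
  have hq0 : algebraMap E (FE E M₁) (q : E) ≠ 0 :=
    (map_ne_zero_iff _ (algebraMap E (FE E M₁)).injective).mpr
      (Nat.cast_ne_zero.mpr (NeZero.ne q))
  have hcoeT : (T₁ : LaurentSeries E) = castE E ((q : LaurentSeries ℤ) * Z) := by
    rw [← hZ, ← h922_coe_ringHom, hT₁]
    simp only [map_sub, map_mul, map_pow, map_ofNat]
    rw [h922_coe_ringHom, h922_coe_ringHom, h922_coe_ringHom, coe_jE_one, coe_uE, hg₁]
  have hcoeq : ((algebraMap E (FE E M₁) (q : E) : FE E M₁) : LaurentSeries E)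
      = castE E (q : LaurentSeries ℤ) := by
    rw [map_natCast, map_natCast]
    rfl
  refine ⟨(algebraMap E (FE E M₁) (q : E))⁻¹ * T₁, Z, ?_, ?_⟩
  · have hq0' : castE E (q : LaurentSeries ℤ) ≠ 0 := by
      rw [← hcoeq]
      intro h
      exact hq0 (Subtype.ext h)
    have h1 : ((((algebraMap E (FE E M₁) (q : E))⁻¹ * T₁ : FE E M₁)) : LaurentSeries E)
        = (castE E (q : LaurentSeries ℤ))⁻¹ * castE E ((q : LaurentSeries ℤ) * Z) := by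
      rw [← hcoeT, ← hcoeq]
      rfl
    rw [h1, map_mul, ← mul_assoc, inv_mul_cancel₀ hq0', one_mul]
  · rw [← mul_assoc, mul_inv_cancel₀ hq0, one_mul]

omit hq in
theorem h922_nonunits_mul_mem {L : Type*} [Field L] (V : ValuationSubring L) {x y : L}
    (hx : x ∈ V.nonunits) (hy : y ∈ V) : x * y ∈ V.nonunits := by
  rw [ValuationSubring.mem_nonunits_iff, map_mul]
  exact mul_lt_one_of_lt_of_le ((V.mem_nonunits_iff).1 hx) ((V.valuation_le_one_iff y).2 hy)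

omit hq in
theorem h922_nonunits_add {L : Type*} [Field L] (V : ValuationSubring L) {x y : L}
    (hx : x ∈ V.nonunits) (hy : y ∈ V.nonunits) : x + y ∈ V.nonunits := by
  rw [ValuationSubring.mem_nonunits_iff]
  exact lt_of_le_of_lt (V.valuation.map_add x y)
    (max_lt ((V.mem_nonunits_iff).1 hx) ((V.mem_nonunits_iff).1 hy))

omit hq in
theorem h922_nonunits_neg {L : Type*} [Field L] (V : ValuationSubring L) {x : L}
    (hx : x ∈ V.nonunits) : -x ∈ V.nonunits := by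
  rw [ValuationSubring.mem_nonunits_iff, Valuation.map_neg]
  exact (V.mem_nonunits_iff).1 hx

/-- `j^(q²) ≠ j` at level `M₁`. -/
theorem h922_jpow_sub_ne_zero :
    jE E M₁ 1 (one_dvd M₁) ^ (q ^ 2) - jE E M₁ 1 (one_dvd M₁) ≠ 0 := by
  intro h
  have h1 : ((jE E M₁ 1 (one_dvd M₁) ^ (q ^ 2) : FE E M₁) : LaurentSeries E)
      = (jE E M₁ 1 (one_dvd M₁) : LaurentSeries E) := congrArg Subtype.val (sub_eq_zero.mp h)
  rw [← h922_coe_ringHom, map_pow, h922_coe_ringHom, coe_jE_one, coeffMap_jqModC] at h1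
  have h2 := congrArg HahnSeries.order h1
  rw [HahnSeries.order_pow, Fermat.Agent.S28.H145.order_jqModC, nsmul_eq_mul] at h2
  have hq2 : 2 ≤ q := hq.out.two_le
  have h3 : ((q ^ 2 : ℕ) : ℤ) = 1 := by
    push_cast at h2 ⊢
    linarith
  have h4 : q ^ 2 = 1 := by exact_mod_cast h3
  nlinarith

/-- **R4, the residue of `π^(12(q-1)) / U_m` along `mid`, concrete, general `ρ`.**

`π = j_{q²} - j = β(j_q) - α(j)`, `U_m = α(D)/β(D)`, `e = α((j⁴ (j - 1728)³)^(2(q-1)))`.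
Inputs from MOD3: `hα` (`V` lies over the Gauss valuation of level `M₁` via `α`), `hqV`,
`hβD`/`hβD'` (`β(D)` is a unit of `V`), `hac` (`j^(q²) - j` is a unit of `V`), and the Eisenstein
constant `ρ ≡ π^(q-1)/q` with `ρ^12 (j^(q²) - j)^12 ≡ g₁^12`, `g₁` the function of level `M₁` with
`t`-expansion helper83's `U`. -/
theorem h922_hres_mid_rho
    (Vinf' : ValuationSubring (FE E M₁)) (hVinf : IsVinf P E M₁ Vinf')
    (V : ValuationSubring (FE E (M₁ * q)))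
    (hα : ∀ f ∈ Vinf', αE E M₁ q f ∈ V)
    (hqV : algebraMap E (FE E (M₁ * q)) (q : E) ∈ V.nonunits)
    (hβD : βE E M₁ q (dE E M₁ q hqM) ∈ V)
    (hβD' : (βE E M₁ q (dE E M₁ q hqM))⁻¹ ∈ V)
    (hac : (αE E M₁ q (jE E M₁ 1 (one_dvd M₁) ^ (q ^ 2) - jE E M₁ 1 (one_dvd M₁)))⁻¹ ∈ V)
    (U : LaurentSeries ℤ)
    (hU : coeffMap (Int.castRingHom (ZMod q)) U * thetaL (ZMod q) (jqModC (ZMod q))
      = (jqModC (ZMod q) - jqModC (ZMod q) ^ (q ^ 2))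
          * thetaL (ZMod q) (jqModC (ZMod q)) ^ q)
    (g₁ : FE E M₁) (hg₁ : (g₁ : LaurentSeries E) = castE E U)
    (ρ : FE E (M₁ * q)) (hρV : ρ ∈ V)
    (hρ : ρ ^ 12 * (αE E M₁ q (jE E M₁ 1 (one_dvd M₁) ^ (q ^ 2) - jE E M₁ 1 (one_dvd M₁))) ^ 12
        - (αE E M₁ q g₁) ^ 12 ∈ V.nonunits)
    (hEis : (βE E M₁ q (jE E M₁ q hqM) - αE E M₁ q (jE E M₁ 1 (one_dvd M₁))) ^ (q - 1)
          * (algebraMap E (FE E (M₁ * q)) (q : E))⁻¹ - ρ ∈ V.nonunits) :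
    ((βE E M₁ q (jE E M₁ q hqM) - αE E M₁ q (jE E M₁ 1 (one_dvd M₁))) ^ (12 * (q - 1))
        - αE E M₁ q ((jE E M₁ 1 (one_dvd M₁) ^ 4 * (jE E M₁ 1 (one_dvd M₁) - 1728) ^ 3)
              ^ (2 * (q - 1)))
          * (αE E M₁ q (dE E M₁ q hqM) * (βE E M₁ q (dE E M₁ q hqM))⁻¹))
      * (αE E M₁ q (dE E M₁ q hqM) * (βE E M₁ q (dE E M₁ q hqM))⁻¹)⁻¹ ∈ V.nonunits := by
  have hinjα : Function.Injective (αE E M₁ q) := (αE E M₁ q).toRingHom.injective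
  have hinjβ : Function.Injective (βE E M₁ q) := (βE E M₁ q).toRingHom.injective
  have hq0 : algebraMap E (FE E (M₁ * q)) (q : E) ≠ 0 :=
    (map_ne_zero_iff _ (algebraMap E (FE E (M₁ * q))).injective).mpr
      (Nat.cast_ne_zero.mpr (NeZero.ne q))
  have hβD0 : βE E M₁ q (dE E M₁ q hqM) ≠ 0 :=
    (map_ne_zero_iff _ hinjβ).mpr (dE_ne_zero E M₁ q hqM)
  have hu0 : αE E M₁ q (uE E M₁ q hqM) ≠ 0 :=
    (map_ne_zero_iff _ hinjα).mpr (uE_ne_zero E M₁ q hqM)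
  have hu' : (αE E M₁ q (uE E M₁ q hqM))⁻¹ ∈ V := by
    rw [← map_inv₀, uE_inv]
    exact h922_alpha_mem P E M₁ q hVinf hα _ _ (coe_uE' E M₁ q hqM)
  have huinv : (αE E M₁ q (uE E M₁ q hqM))⁻¹ = αE E M₁ q (uE' E M₁ q hqM) := by
    rw [← map_inv₀, uE_inv]
  -- `h2 : U_m · β(D) = q^12 · α(u)`
  have h2 : (αE E M₁ q (dE E M₁ q hqM) * (βE E M₁ q (dE E M₁ q hqM))⁻¹)
        * βE E M₁ q (dE E M₁ q hqM)
      = algebraMap E (FE E (M₁ * q)) (q : E) ^ 12 * αE E M₁ q (uE E M₁ q hqM) := by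
    rw [mul_assoc, inv_mul_cancel₀ hβD0, mul_one, dE, map_mul, AlgHom.commutes, map_pow]
  -- `h2' : β(D) ≡ α(u)⁻¹`
  have h2' : βE E M₁ q (dE E M₁ q hqM) - (αE E M₁ q (uE E M₁ q hqM))⁻¹ ∈ V.nonunits := by
    rw [huinv]
    exact h922_betaD_congr P E M₁ q hqM Vinf' hVinf V hα hqV hβD hβD'
  -- `h3 : e · u² ≡ ρ^12`
  obtain ⟨z₁, Z, hz₁, hθ⟩ := h922_theta_conc E M₁ q hqM U hU g₁ hg₁
  have hz₁V : αE E M₁ q z₁ ∈ V := h922_alpha_mem P E M₁ q hVinf hα _ _ hz₁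
  have hθα := congrArg (αE E M₁ q) hθ
  simp only [map_sub, map_mul, map_pow, AlgHom.commutes] at hθα
  set A : FE E (M₁ * q) :=
    αE E M₁ q (jE E M₁ 1 (one_dvd M₁)) ^ (q ^ 2) - αE E M₁ q (jE E M₁ 1 (one_dvd M₁)) with hA
  have hAeq : αE E M₁ q (jE E M₁ 1 (one_dvd M₁) ^ (q ^ 2) - jE E M₁ 1 (one_dvd M₁)) = A := by
    rw [hA, map_sub, map_pow]
  rw [hAeq] at hac hρ
  have hA0 : A ≠ 0 := by
    rw [← hAeq]
    exact (map_ne_zero_iff _ hinjα).mpr (h922_jpow_sub_ne_zero E M₁ q)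
  set qL : FE E (M₁ * q) := algebraMap E (FE E (M₁ * q)) (q : E) with hqL
  set u : FE E (M₁ * q) := αE E M₁ q (uE E M₁ q hqM) with hu
  set J : FE E (M₁ * q) := αE E M₁ q (jE E M₁ 1 (one_dvd M₁)) with hJ
  set G : FE E (M₁ * q) := αE E M₁ q g₁ with hG
  have hA12 : (A⁻¹) ^ 12 ∈ V := pow_mem hac 12
  have h3 : αE E M₁ q ((jE E M₁ 1 (one_dvd M₁) ^ 4 * (jE E M₁ 1 (one_dvd M₁) - 1728) ^ 3)
        ^ (2 * (q - 1))) * u ^ 2 - ρ ^ 12 ∈ V.nonunits := by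
    have hkey : αE E M₁ q ((jE E M₁ 1 (one_dvd M₁) ^ 4 * (jE E M₁ 1 (one_dvd M₁) - 1728) ^ 3)
          ^ (2 * (q - 1))) * u ^ 2 - ρ ^ 12
        = (qL * αE E M₁ q z₁ + -(ρ ^ 12 * A ^ 12 - G ^ 12)) * (A⁻¹) ^ 12 := by
      have hAA : A ^ 12 * (A⁻¹) ^ 12 = 1 := by
        rw [← mul_pow, mul_inv_cancel₀ hA0, one_pow]
      rw [← hθα]
      simp only [map_mul, map_pow, map_sub, map_ofNat]
      linear_combination (-(J ^ 4 * (J - 1728) ^ 3) ^ (2 * (q - 1)) * u ^ 2 + ρ ^ 12) * hAA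
    rw [hkey]
    refine h922_nonunits_mul_mem V (h922_nonunits_add V ?_ (h922_nonunits_neg V hρ)) hA12
    exact h922_nonunits_mul_mem V hqV hz₁V
  have h1 : (βE E M₁ q (jE E M₁ q hqM) - J) ^ (q - 1)
      = qL * ((βE E M₁ q (jE E M₁ q hqM) - J) ^ (q - 1) * qL⁻¹) := by
    rw [mul_comm qL, mul_assoc, inv_mul_cancel₀ hq0, mul_one]
  exact h922_hres_abs_nonunits V _ qL _ ρ u (βE E M₁ q (dE E M₁ q hqM)) _ _ (q - 1)
    hq0 hρV hu0 hu' h1 hEis h2 h2' h3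

/-- **R4, the residue of `π^(12(q-1)) / U_m` along `mid`, concrete** (`hres_j`), with
`ρ = g₁ / (j^(q²) - j)` (the form delivered by `h922_residue_Vc` on helper972's `EisData`:
`G(c) = α(g₁)`, `a - c = α(j^(q²) - j)`). -/
theorem h922_hres_mid
    (Vinf' : ValuationSubring (FE E M₁)) (hVinf : IsVinf P E M₁ Vinf')
    (V : ValuationSubring (FE E (M₁ * q)))
    (hα : ∀ f ∈ Vinf', αE E M₁ q f ∈ V)
    (hqV : algebraMap E (FE E (M₁ * q)) (q : E) ∈ V.nonunits)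
    (hβD : βE E M₁ q (dE E M₁ q hqM) ∈ V)
    (hβD' : (βE E M₁ q (dE E M₁ q hqM))⁻¹ ∈ V)
    (hac : (αE E M₁ q (jE E M₁ 1 (one_dvd M₁) ^ (q ^ 2) - jE E M₁ 1 (one_dvd M₁)))⁻¹ ∈ V)
    (U : LaurentSeries ℤ)
    (hU : coeffMap (Int.castRingHom (ZMod q)) U * thetaL (ZMod q) (jqModC (ZMod q))
      = (jqModC (ZMod q) - jqModC (ZMod q) ^ (q ^ 2))
          * thetaL (ZMod q) (jqModC (ZMod q)) ^ q)
    (g₁ : FE E M₁) (hg₁ : (g₁ : LaurentSeries E) = castE E U)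
    (hEis : (βE E M₁ q (jE E M₁ q hqM) - αE E M₁ q (jE E M₁ 1 (one_dvd M₁))) ^ (q - 1)
          * (algebraMap E (FE E (M₁ * q)) (q : E))⁻¹
        - αE E M₁ q g₁
          * (αE E M₁ q (jE E M₁ 1 (one_dvd M₁) ^ (q ^ 2) - jE E M₁ 1 (one_dvd M₁)))⁻¹
        ∈ V.nonunits) :
    ((βE E M₁ q (jE E M₁ q hqM) - αE E M₁ q (jE E M₁ 1 (one_dvd M₁))) ^ (12 * (q - 1))
        - αE E M₁ q ((jE E M₁ 1 (one_dvd M₁) ^ 4 * (jE E M₁ 1 (one_dvd M₁) - 1728) ^ 3)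
              ^ (2 * (q - 1)))
          * (αE E M₁ q (dE E M₁ q hqM) * (βE E M₁ q (dE E M₁ q hqM))⁻¹))
      * (αE E M₁ q (dE E M₁ q hqM) * (βE E M₁ q (dE E M₁ q hqM))⁻¹)⁻¹ ∈ V.nonunits := by
  have hinjα : Function.Injective (αE E M₁ q) := (αE E M₁ q).toRingHom.injective
  have hA0 : αE E M₁ q (jE E M₁ 1 (one_dvd M₁) ^ (q ^ 2) - jE E M₁ 1 (one_dvd M₁)) ≠ 0 :=
    (map_ne_zero_iff _ hinjα).mpr (h922_jpow_sub_ne_zero E M₁ q)
  refine h922_hres_mid_rho P E M₁ q hqM Vinf' hVinf V hα hqV hβD hβD' hac U hU g₁ hg₁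
    (αE E M₁ q g₁
      * (αE E M₁ q (jE E M₁ 1 (one_dvd M₁) ^ (q ^ 2) - jE E M₁ 1 (one_dvd M₁)))⁻¹)
    (V.mul_mem _ _ (h922_alpha_mem P E M₁ q hVinf hα _ _ hg₁) hac) ?_ hEis
  have h0 : (αE E M₁ q g₁
      * (αE E M₁ q (jE E M₁ 1 (one_dvd M₁) ^ (q ^ 2) - jE E M₁ 1 (one_dvd M₁)))⁻¹) ^ 12
        * (αE E M₁ q (jE E M₁ 1 (one_dvd M₁) ^ (q ^ 2) - jE E M₁ 1 (one_dvd M₁))) ^ 12
      - (αE E M₁ q g₁) ^ 12 = 0 := by
    rw [← mul_pow, mul_assoc, inv_mul_cancel₀ hA0, mul_one, sub_self]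
  rw [h0, ValuationSubring.mem_nonunits_iff, map_zero]
  exact zero_lt_one

end Concrete

end Fermat.Agent.S36.H922
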