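import Fermat.Agent.S28.H88.Kronecker
import Fermat.Agent.S28.H589.UnitPoly
import Fermat.Agent.S28.H145.PowIndep
import Fermat.Prelude.Thm_ModularCurve_coeffMap_qExpand

/-!
# S36 engine / cell REG, route R4 (MID-UNIT): the unit polynomial modulo `p`  — helper922

Formal `q`-series only (Mathlib + S28).  Let `Ψ ∈ ℤ[Y][X]` be the unit polynomial of level `p`
(`S15.H482.exists_unitPoly_int` / `S28.H589.descent`): monic of degree `p + 1` with

* `Ψ(j ; p¹² Δ(q^p)/Δ(q)) = 0`,
* `Ψ(j(q^p) ; Δ(q)/Δ(q^p)) = 0`.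

Then modulo `p`

  `Ψ̄ = X ^ (p+1) - D(Y) · X`,   `D(j̄) = Δ̄ ^ (1 - p) = Δ̄ · (Δ̄⁻¹) ^ p`.

Consequence (`h922_unit_roots_congr`): in ANY commutative ring `κ` of characteristic `p` which is
reduced, two UNIT roots `b, g` of `Ψ̄(y ; X)` (for the same `y`) are EQUAL.  Applied to the residue
field of the valuation `V_mid` of `X₀(p² M')`, `y = j_p`, `b = β(U')`, `g = α(p¹²/U')`:
`β(U') ≡ α(p¹²/U') mod 𝔪_mid` — the residue of the modular unit along `mid`, with no Fricke
involution on residue fields and no expansion at the cusp `1/p`.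
-/

set_option autoImplicit false

noncomputable section

open ModularCurve HahnSeries Polynomial

namespace Fermat.Agent.S36.H922

open Fermat.Agent.S28

section Order

variable (k : Type*) [Field k]

theorem h922_deltaL_coeff (n : ℤ) :
    (deltaL k).coeff n
      = (HahnSeries.ofPowerSeries ℤ k (dedekindEtaUnit.map (Int.castRingHom k))).coeff (n - 1) := by
  rw [deltaL, HahnSeries.coeff_single_mul, one_mul]

theorem h922_deltaL_coeff_one : (deltaL k).coeff 1 = 1 := by
  rw [h922_deltaL_coeff]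
  have : ((1 : ℤ) - 1) = ((0 : ℕ) : ℤ) := by norm_num
  rw [this, HahnSeries.ofPowerSeries_apply_coeff, PowerSeries.coeff_map,
    PowerSeries.coeff_zero_eq_constantCoeff_apply, constantCoeff_dedekindEtaUnit]
  simp

theorem h922_deltaL_ne_zero : deltaL k ≠ 0 := by
  intro h
  have := h922_deltaL_coeff_one k
  rw [h, HahnSeries.coeff_zero] at this
  exact zero_ne_one this

theorem h922_order_deltaL : (deltaL k).order = 1 := by
  refine le_antisymm (HahnSeries.order_le_of_coeff_ne_zero ?_) ?_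
  · rw [h922_deltaL_coeff_one]; exact one_ne_zero
  · by_contra hlt
    rw [not_le] at hlt
    refine (HahnSeries.coeff_order_eq_zero.not.mpr (h922_deltaL_ne_zero k)) ?_
    rw [h922_deltaL_coeff]
    exact ModularCurve.ofPowerSeries_coeff_of_neg _ (by omega)

/-- `ḡ = Δ(q)/Δ(q^p)` over `k`. -/
def h922_g (p : ℕ) [NeZero p] : LaurentSeries k := deltaL k * qExpand k p (deltaInvL k)

theorem h922_g_mul (p : ℕ) [NeZero p] : h922_g k p * qExpand k p (deltaL k) = deltaL k := by
  rw [h922_g, mul_assoc, ← map_mul, mul_comm (deltaInvL k), h88_deltaL_mul_deltaInvL, map_one,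
    mul_one]

theorem h922_g_ne_zero (p : ℕ) [NeZero p] : h922_g k p ≠ 0 := by
  intro h
  have := h922_g_mul k p
  rw [h, zero_mul] at this
  exact h922_deltaL_ne_zero k this.symm

theorem h922_g_order_coprime (p : ℕ) [NeZero p] : IsCoprime (h922_g k p).order (p : ℤ) := by
  have hV : qExpand k p (deltaL k) ≠ 0 := by
    intro h
    have := h922_g_mul k p
    rw [h, mul_zero] at this
    exact h922_deltaL_ne_zero k this.symm
  obtain ⟨m, hm⟩ := Fermat.Agent.S28.H145.dvd_order_qExpand (k := k) p (deltaL k)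
  have h1 : (h922_g k p * qExpand k p (deltaL k)).order
      = (h922_g k p).order + (qExpand k p (deltaL k)).order :=
    HahnSeries.order_mul (h922_g_ne_zero k p) hV
  rw [h922_g_mul, h922_order_deltaL, hm] at h1
  exact ⟨1, m, by rw [one_mul]; linarith⟩

end Order

section Main

variable (p : ℕ) [hp : Fact p.Prime] [NeZero p]

/-- Reduction of coefficients `ℤ((q)) → 𝔽_p((q))`. -/
abbrev h922_red : LaurentSeries ℤ →+* LaurentSeries (ZMod p) :=
  coeffMap (Int.castRingHom (ZMod p))

/-- `Ψ mod p ∈ 𝔽_p[Y][X]`. -/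
def h922_bar (Ψ : Polynomial (Polynomial ℤ)) : Polynomial (Polynomial (ZMod p)) :=
  Ψ.map (Polynomial.mapRingHom (Int.castRingHom (ZMod p)))

theorem h922_red_comp_evalAt (y : LaurentSeries ℤ) :
    (h922_red p).comp (evalAt y) = evalAt (h922_red p y) := by
  apply Polynomial.ringHom_ext
  · intro a
    simp [evalAt]
  · simp [evalAt]

theorem h922_bar_eval₂ (Ψ : Polynomial (Polynomial ℤ)) (Y x : LaurentSeries (ZMod p)) :
    (h922_bar p Ψ).eval₂ (Polynomial.aeval (R := ZMod p) Y).toRingHom x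
      = Ψ.eval₂ (evalAt Y) x := by
  rw [h922_bar, Polynomial.eval₂_map, h88_aeval_comp_mapRingHom]

theorem h922_red_eval₂ (Ψ : Polynomial (Polynomial ℤ)) (y x : LaurentSeries ℤ) :
    h922_red p (Ψ.eval₂ (evalAt y) x) = Ψ.eval₂ (evalAt (h922_red p y)) (h922_red p x) := by
  rw [Polynomial.hom_eval₂, h922_red_comp_evalAt]

theorem h922_red_unit : h922_red p ((p : LaurentSeries ℤ) ^ 12 * unitL ℤ p) = 0 := by
  have : CharP (LaurentSeries (ZMod p)) p := h88_charP_laurent (ZMod p) p
  rw [map_mul, map_pow, map_natCast, CharP.cast_eq_zero, zero_pow (by norm_num), zero_mul]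

theorem h922_red_jp :
    h922_red p (qExpand ℤ p (jqModC ℤ)) = jqModC (ZMod p) ^ p := by
  rw [h922_red, coeffMap_qExpand, coeffMap_jqModC, h88_qExpand_zmod]

theorem h922_red_unit' : h922_red p (H589.unitL' p) = h922_g (ZMod p) p := by
  rw [h922_red, H589.unitL', map_mul, coeffMap_qExpand, h88_coeffMap_deltaL,
    h88_coeffMap_deltaInvL, h922_g]

/-- **The unit polynomial modulo `p`.** -/
theorem h922_unitPoly_bar (Ψ : Polynomial (Polynomial ℤ)) (hΨ : Ψ.Monic)
    (hdeg : Ψ.natDegree = p + 1)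
    (h1 : Ψ.eval₂ (evalAt (jqModC ℤ)) ((p : LaurentSeries ℤ) ^ 12 * unitL ℤ p) = 0)
    (h2 : Ψ.eval₂ (evalAt (qExpand ℤ p (jqModC ℤ))) (H589.unitL' p) = 0) :
    ∃ D : Polynomial (ZMod p),
      h922_bar p Ψ = X ^ (p + 1) - Polynomial.C D * X ∧
      Polynomial.aeval (jqModC (ZMod p)) D = h922_g (ZMod p) p := by
  classical
  set J := jqModC (ZMod p) with hJ
  set g := h922_g (ZMod p) p with hg
  set Ψb := h922_bar p Ψ with hΨb
  have hpp : 2 ≤ p := hp.out.two_le
  have hΨbm : Ψb.Monic := hΨ.map _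
  have hΨbd : Ψb.natDegree = p + 1 := by rw [hΨb, h922_bar, hΨ.natDegree_map, hdeg]
  have hg0 : g ≠ 0 := h922_g_ne_zero (ZMod p) p
  -- the two relations modulo `p`
  have r1 : Ψb.eval₂ (Polynomial.aeval (R := ZMod p) J).toRingHom 0 = 0 := by
    have h := congrArg (h922_red p) h1
    rw [h922_red_eval₂, h922_red_unit, map_zero, coeffMap_jqModC] at h
    rw [h922_bar_eval₂]
    exact h
  have r2 : Ψb.eval₂ (Polynomial.aeval (R := ZMod p) (J ^ p)).toRingHom g = 0 := by
    have h := congrArg (h922_red p) h2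
    rw [h922_red_eval₂, h922_red_jp, h922_red_unit', map_zero] at h
    rw [h922_bar_eval₂]
    exact h
  -- coefficients
  set a : ℕ → LaurentSeries (ZMod p) := fun i => Polynomial.aeval J (Ψb.coeff i) with ha
  have ha0 : a 0 = 0 := by
    rw [Polynomial.eval₂_at_zero] at r1
    exact r1
  have hatop : a (p + 1) = 1 := by
    have : Ψb.coeff (p + 1) = 1 := by
      rw [← hΨbd]; exact hΨbm.coeff_natDegree
    simp only [ha, this, map_one]
  have hgp : g ^ p = qExpand (ZMod p) p g := (h88_qExpand_zmod p g).symm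
  have hsum : ∑ i ∈ Finset.range p, qExpand (ZMod p) p (a i) * g ^ i
      + qExpand (ZMod p) p (a p * g) + qExpand (ZMod p) p g * g = 0 := by
    rw [Polynomial.eval₂_eq_sum_range, hΨbd, Finset.sum_range_succ, Finset.sum_range_succ] at r2
    have e : ∀ i, (Polynomial.aeval (R := ZMod p) (J ^ p)).toRingHom (Ψb.coeff i)
        = qExpand (ZMod p) p (a i) := fun i => h88_aeval_pow_eq_qExpand p (Ψb.coeff i)
    simp only [e] at r2
    rw [hatop, map_one, one_mul, pow_succ, hgp] at r2
    rw [map_mul]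
    exact r2
  -- regroup
  set c : Fin p → LaurentSeries (ZMod p) := fun i =>
    a i + (if (i : ℕ) = 0 then a p * g else 0) + (if (i : ℕ) = 1 then g else 0) with hc
  have hsum' : ∑ i : Fin p, qExpand (ZMod p) p (c i) * g ^ (i : ℕ) = 0 := by
    have h0 : ∑ i : Fin p, qExpand (ZMod p) p (c i) * g ^ (i : ℕ)
        = ∑ i ∈ Finset.range p, qExpand (ZMod p) p
            (a i + (if i = 0 then a p * g else 0) + (if i = 1 then g else 0)) * g ^ i :=
      Fin.sum_univ_eq_sum_range (fun i => qExpand (ZMod p) p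
        (a i + (if i = 0 then a p * g else 0) + (if i = 1 then g else 0)) * g ^ i) p
    rw [h0]
    refine Eq.trans ?_ hsum
    simp only [map_add, add_mul, Finset.sum_add_distrib]
    have e0 : ∑ i ∈ Finset.range p,
        qExpand (ZMod p) p (if i = 0 then a p * g else 0) * g ^ i
        = qExpand (ZMod p) p (a p * g) := by
      rw [Finset.sum_eq_single 0]
      · simp
      · intro i _ hi
        simp [hi]
      · intro h
        exact absurd (Finset.mem_range.mpr (by omega)) h
    have e1 : ∑ i ∈ Finset.range p,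
        qExpand (ZMod p) p (if i = 1 then g else 0) * g ^ i
        = qExpand (ZMod p) p g * g := by
      rw [Finset.sum_eq_single 1]
      · simp
      · intro i _ hi
        simp [hi]
      · intro h
        exact absurd (Finset.mem_range.mpr (by omega)) h
    rw [e0, e1]
  have hc0 := Fermat.Agent.S28.H145.eq_zero_of_sum_qExpand_mul_pow_eq_zero (k := ZMod p) p g hg0
    (h922_g_order_coprime (ZMod p) p) c hsum'
  -- read off the coefficients
  have hap : a p = 0 := by
    have h := hc0 ⟨0, by omega⟩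
    simp only [hc, ha0, zero_add, if_true] at h
    have h' : a p * g = 0 := by simpa using h
    rcases mul_eq_zero.mp h' with h | h
    · exact h
    · exact absurd h hg0
  have ha1 : a 1 = -g := by
    have h := hc0 ⟨1, by omega⟩
    simp only [hc] at h
    have h' : a 1 + g = 0 := by simpa using h
    exact eq_neg_of_add_eq_zero_left h'
  have hai : ∀ i, i ≠ 1 → i ≠ p + 1 → a i = 0 := by
    intro i hi1 hip
    rcases Nat.lt_or_ge i p with hlt | hge
    · rcases Nat.eq_zero_or_pos i with h0 | hpos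
      · rw [h0]; exact ha0
      · have h := hc0 ⟨i, hlt⟩
        simp only [hc] at h
        have hi0 : i ≠ 0 := by omega
        simpa [hi0, hi1] using h
    · rcases Nat.eq_or_lt_of_le hge with h | h
      · rw [← h]; exact hap
      · have : Ψb.coeff i = 0 :=
          Polynomial.coeff_eq_zero_of_natDegree_lt (by rw [hΨbd]; omega)
        simp only [ha, this, map_zero]
  have hinj := h88_aeval_jqModC_injective (ZMod p)
  refine ⟨-Ψb.coeff 1, ?_, ?_⟩
  · ext1 n
    rw [Polynomial.coeff_sub, Polynomial.coeff_X_pow, Polynomial.coeff_C_mul_X]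
    by_cases hn1 : n = 1
    · subst hn1
      have : (1 : ℕ) ≠ p + 1 := by omega
      have hp0 : p ≠ 0 := by omega
      simp [this, hp0]
    · by_cases hnp : n = p + 1
      · subst hnp
        have : Ψb.coeff (p + 1) = 1 := by
          rw [← hΨbd]; exact hΨbm.coeff_natDegree
        have hp0 : p ≠ 0 := by omega
        simp [this, hp0]
      · have h0 : Ψb.coeff n = 0 := by
          apply hinj
          rw [map_zero]
          exact hai n hn1 hnp
        simp [h0, hn1, hnp]
  · rw [map_neg]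
    have : Polynomial.aeval J (Ψb.coeff 1) = a 1 := rfl
    rw [this, ha1, neg_neg]

open Fermat.Agent.S28.H589 in
/-- The unit polynomial `Ψ ∈ ℤ[Y][X]` of helper589, with its degree and both vanishing
relations (same proof as `S15.H482.exists_unitPoly_int`, keeping the degree). -/
theorem h922_exists_unitPoly (hp' : p.Prime) :
    ∃ Ψ : Polynomial (Polynomial ℤ), Ψ.Monic ∧ Ψ.natDegree = p + 1 ∧
      Ψ.eval₂ (evalAt (jqModC ℤ)) ((p : LaurentSeries ℤ) ^ 12 * unitL ℤ p) = 0 ∧
      Ψ.eval₂ (evalAt (qExpand ℤ p (jqModC ℤ))) (unitL' p) = 0 := by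
  obtain ⟨W, hWm, hWd, h1, h2⟩ := exists_unitPoly_complex p hp'
  obtain ⟨m, hm⟩ := exists_order_unitSeriesC' p
  have hord : (unitL' p).order = 1 - p * m := by
    rw [← order_iotaC, iotaC_unit', hm]
  have hf0 : unitL' p ≠ 0 := by
    intro h
    apply unitSeriesC'_ne_zero p
    rw [← iotaC_unit', h, map_zero]
  have hcop : IsCoprime (unitL' p).order (p : ℤ) := by
    rw [hord]
    exact ⟨1, m, by ring⟩
  have hne : unitL' p ≠ qExpand ℤ p ((p : LaurentSeries ℤ) ^ 12 * unitL ℤ p) := by
    intro h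
    have h3 := congrArg iotaC h
    rw [iotaC_unit', iotaC, coeffMap_qExpand] at h3
    obtain ⟨k, hk⟩ := Fermat.Agent.S28.H145.dvd_order_qExpand (k := ℂ) p
      (coeffMap (Int.castRingHom ℂ) ((p : LaurentSeries ℤ) ^ 12 * unitL ℤ p))
    rw [← h3, hm] at hk
    have hp2 : (2 : ℤ) ≤ p := by exact_mod_cast hp'.two_le
    have hdvd : (p : ℤ) ∣ 1 := ⟨k + m, by linarith⟩
    have := Int.le_of_dvd one_pos hdvd
    omega
  exact descent p W hWm (p + 1) hWd rfl
    ((p : LaurentSeries ℤ) ^ 12 * unitL ℤ p) (unitL' p) hf0 hcop hne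
    (by rw [iotaC_unit]; exact h1)
    (by rw [iotaC_unit']; exact h2)

/-- Evaluation `𝔽_p[Y] → κ`, `Y ↦ y`, for a ring `κ` of characteristic `p`. -/
def h922_evK (κ : Type*) [CommRing κ] [CharP κ p] (y : κ) : Polynomial (ZMod p) →+* κ :=
  Polynomial.eval₂RingHom (ZMod.castHom (dvd_refl p) κ) y

theorem h922_evK_comp (κ : Type*) [CommRing κ] [CharP κ p] (y : κ) :
    (h922_evK p κ y).comp (Polynomial.mapRingHom (Int.castRingHom (ZMod p)))
      = (Polynomial.aeval (R := ℤ) y).toRingHom := by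
  apply Polynomial.ringHom_ext
  · intro a
    simp [h922_evK]
  · simp [h922_evK]

/-- **Unit roots of the unit polynomial are unique in characteristic `p`.**
`κ` a reduced ring of characteristic `p` (e.g. a residue field), `Ψ` the unit polynomial;
if `b` and `g` are UNITS of `κ` with `Ψ(y ; b) = 0 = Ψ(y ; g)` then `b = g`. -/
theorem h922_unit_roots_eq (Ψ : Polynomial (Polynomial ℤ)) (hΨ : Ψ.Monic)
    (hdeg : Ψ.natDegree = p + 1)
    (h1 : Ψ.eval₂ (evalAt (jqModC ℤ)) ((p : LaurentSeries ℤ) ^ 12 * unitL ℤ p) = 0)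
    (h2 : Ψ.eval₂ (evalAt (qExpand ℤ p (jqModC ℤ))) (H589.unitL' p) = 0)
    (κ : Type*) [CommRing κ] [IsReduced κ] [CharP κ p] (y b g : κ)
    (hb : IsUnit b) (hg : IsUnit g)
    (hΨb : Ψ.eval₂ (Polynomial.aeval (R := ℤ) y).toRingHom b = 0)
    (hΨg : Ψ.eval₂ (Polynomial.aeval (R := ℤ) y).toRingHom g = 0) : b = g := by
  obtain ⟨D, hD, -⟩ := h922_unitPoly_bar p Ψ hΨ hdeg h1 h2
  have key : ∀ x : κ, IsUnit x → Ψ.eval₂ (Polynomial.aeval (R := ℤ) y).toRingHom x = 0 →
      x ^ p = h922_evK p κ y D := by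
    intro x hx h
    rw [← h922_evK_comp p κ y, ← Polynomial.eval₂_map] at h
    have h' : (h922_bar p Ψ).eval₂ (h922_evK p κ y) x = 0 := h
    rw [hD, Polynomial.eval₂_sub, Polynomial.eval₂_pow, Polynomial.eval₂_X, Polynomial.eval₂_mul,
      Polynomial.eval₂_C, Polynomial.eval₂_X, pow_succ, ← sub_mul] at h'
    have h3 := hx.mul_left_eq_zero.mp h'
    exact sub_eq_zero.mp h3
  have hbg : b ^ p = g ^ p := (key b hb hΨb).trans (key g hg hΨg).symm
  have hsub : (b - g) ^ p = 0 := by
    rw [sub_pow_char, hbg, sub_self]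
  have := IsReduced.eq_zero _ ⟨p, hsub⟩
  exact sub_eq_zero.mp this

end Main

end Fermat.Agent.S36.H922
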